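import Mathlib
import Fermat.Prelude.Def_ModularCurve_X0

/-!
# GR-D, Hauptmodul package: the first coefficients of `E₄` and `∏ (1 - qⁿ)²⁴`
-/

set_option autoImplicit false

namespace Fermat.Agent.GR.D.HM

open PowerSeries ModularCurve

/-- a power series is its truncation plus a multiple of `X ^ n`. -/
theorem exists_eq_sum_add (f : PowerSeries ℤ) (n : ℕ) :
    ∃ g : PowerSeries ℤ,
      f = ∑ i ∈ Finset.range n, ((f.coeff i : ℤ) : PowerSeries ℤ) * X ^ i + X ^ n * g := by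
  have h : (X : PowerSeries ℤ) ^ n ∣
      f - ∑ i ∈ Finset.range n, ((f.coeff i : ℤ) : PowerSeries ℤ) * X ^ i := by
    rw [X_pow_dvd_iff]
    intro m hm
    rw [map_sub, map_sum, sub_eq_zero]
    have : ∀ i ∈ Finset.range n, (coeff m) (((f.coeff i : ℤ) : PowerSeries ℤ) * X ^ i) =
        if m = i then f.coeff i else 0 := by
      intro i _
      rw [show ((f.coeff i : ℤ) : PowerSeries ℤ) = C (f.coeff i) by simp, coeff_C_mul_X_pow]
    rw [Finset.sum_congr rfl this, Finset.sum_ite_eq, if_pos (Finset.mem_range.mpr hm)]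
  obtain ⟨g, hg⟩ := h
  exact ⟨g, by rw [← hg]; ring⟩

theorem coeff_eisenstein4_zero : eisenstein4.coeff 0 = 1 := by simp [eisenstein4]
theorem coeff_eisenstein4_one : eisenstein4.coeff 1 = 240 := by simp [eisenstein4]
theorem coeff_eisenstein4_two : eisenstein4.coeff 2 = 2160 := by
  simp only [eisenstein4, coeff_mk]; decide
theorem coeff_eisenstein4_three : eisenstein4.coeff 3 = 6720 := by
  simp only [eisenstein4, coeff_mk]; decide
theorem coeff_eisenstein4_four : eisenstein4.coeff 4 = 17520 := by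
  simp only [eisenstein4, coeff_mk]; decide
theorem coeff_eisenstein4_five : eisenstein4.coeff 5 = 30240 := by
  simp only [eisenstein4, coeff_mk]; decide

theorem exists_eisenstein4 : ∃ g : PowerSeries ℤ, eisenstein4 =
    1 + 240 * X + 2160 * X ^ 2 + 6720 * X ^ 3 + 17520 * X ^ 4 + 30240 * X ^ 5 + X ^ 6 * g := by
  obtain ⟨g, hg⟩ := exists_eq_sum_add eisenstein4 6
  refine ⟨g, ?_⟩
  rw [hg]
  simp only [Finset.sum_range_succ, Finset.sum_range_zero, coeff_eisenstein4_zero,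
    coeff_eisenstein4_one, coeff_eisenstein4_two, coeff_eisenstein4_three,
    coeff_eisenstein4_four, coeff_eisenstein4_five]
  push_cast
  ring

theorem X_pow_dvd_prod_sub_one (n : ℕ) (t : Finset ℕ) (ht : ∀ i ∈ t, n ≤ i) :
    (X : PowerSeries ℤ) ^ (n + 1) ∣ ∏ i ∈ t, (1 - X ^ (i + 1)) - 1 := by
  classical
  induction t using Finset.induction_on with
  | empty => simp
  | insert a t ha ih =>
    rw [Finset.prod_insert ha]
    have h1 := ih fun i hi => ht i (Finset.mem_insert_of_mem hi)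
    have h2 : (X : PowerSeries ℤ) ^ (n + 1) ∣ X ^ (a + 1) :=
      pow_dvd_pow _ (Nat.succ_le_succ (ht a (Finset.mem_insert_self a t)))
    have e : (1 - (X : PowerSeries ℤ) ^ (a + 1)) * ∏ i ∈ t, (1 - X ^ (i + 1)) - 1 =
        (∏ i ∈ t, (1 - X ^ (i + 1)) - 1) - X ^ (a + 1) * ∏ i ∈ t, (1 - X ^ (i + 1)) := by ring
    rw [e]
    exact dvd_sub h1 (h2.mul_right _)

open scoped PowerSeries.WithPiTopology in
theorem X_pow_dvd_etaProd_sub (n : ℕ) :
    (X : PowerSeries ℤ) ^ (n + 1) ∣ etaProd - ∏ i ∈ Finset.range n, (1 - X ^ (i + 1)) := by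
  classical
  rw [X_pow_dvd_iff]
  intro m hm
  rw [map_sub, sub_eq_zero]
  have h := (PowerSeries.WithPiTopology.multipliable_one_sub_X_pow ℤ).hasProd
  have hc : Continuous (fun f : PowerSeries ℤ => coeff m f) :=
    PowerSeries.WithPiTopology.continuous_coeff ℤ m
  have t1 := (hc.tendsto _).comp h
  have ev : ∀ᶠ s : Finset ℕ in Filter.atTop,
      coeff m (∏ i ∈ Finset.range n, (1 - (X : PowerSeries ℤ) ^ (i + 1))) =
        ((fun f : PowerSeries ℤ => coeff m f) ∘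
          fun s : Finset ℕ => ∏ i ∈ s, (1 - (X : PowerSeries ℤ) ^ (i + 1))) s := by
    filter_upwards [Filter.eventually_ge_atTop (Finset.range n)] with s hs
    simp only [Function.comp_apply]
    rw [← Finset.prod_sdiff hs]
    have h1 := X_pow_dvd_prod_sub_one n (s \ Finset.range n) (fun i hi => by
      have := (Finset.mem_sdiff.mp hi).2
      simpa using this)
    have h2 : (X : PowerSeries ℤ) ^ (n + 1) ∣
        (∏ i ∈ s \ Finset.range n, (1 - X ^ (i + 1))) * ∏ i ∈ Finset.range n, (1 - X ^ (i + 1)) -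
          ∏ i ∈ Finset.range n, (1 - X ^ (i + 1)) := by
      have e : (∏ i ∈ s \ Finset.range n, (1 - (X : PowerSeries ℤ) ^ (i + 1))) *
          ∏ i ∈ Finset.range n, (1 - X ^ (i + 1)) - ∏ i ∈ Finset.range n, (1 - X ^ (i + 1)) =
          (∏ i ∈ s \ Finset.range n, (1 - X ^ (i + 1)) - 1) *
            ∏ i ∈ Finset.range n, (1 - X ^ (i + 1)) := by ring
      rw [e]
      exact h1.mul_right _
    have h3 := (X_pow_dvd_iff.mp h2) m hm
    rw [map_sub, sub_eq_zero] at h3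
    exact h3.symm
  exact tendsto_nhds_unique t1 (tendsto_const_nhds.congr' ev)

theorem exists_etaProd : ∃ g : PowerSeries ℤ, etaProd = 1 - X - X ^ 2 + X ^ 5 * g := by
  obtain ⟨g, hg⟩ := X_pow_dvd_etaProd_sub 4
  refine ⟨g + (2 - X ^ 3 - X ^ 4 + X ^ 5), ?_⟩
  have : etaProd = ∏ i ∈ Finset.range 4, (1 - X ^ (i + 1)) + X ^ (4 + 1) * g := by
    rw [← hg]; ring
  rw [this]
  simp only [Finset.prod_range_succ, Finset.prod_range_zero]
  ring

theorem exists_dedekindEtaUnit : ∃ g : PowerSeries ℤ, dedekindEtaUnit =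
    1 - 24 * X + 252 * X ^ 2 - 1472 * X ^ 3 + 4830 * X ^ 4 + X ^ 5 * g := by
  obtain ⟨g, hg⟩ := exists_etaProd
  have h1 : (X : PowerSeries ℤ) ^ 5 * g ∣ etaProd ^ 24 - (1 - X - X ^ 2) ^ 24 := by
    have := sub_dvd_pow_sub_pow etaProd (1 - X - X ^ 2 : PowerSeries ℤ) 24
    rwa [show etaProd - (1 - X - X ^ 2 : PowerSeries ℤ) = X ^ 5 * g by rw [hg]; ring] at this
  obtain ⟨c, hc⟩ := h1
  refine ⟨g * c + (-6072 - 16192 * X + 78936 * X ^ 2 - 82731 * X ^ 3 - 212520 * X ^ 4 + 649704 * X ^ 5 - 73416 * X ^ 6 - 1977862 * X ^ 7 + 2034672 * X ^ 8 + 3487260 * X ^ 9 - 7072408 * X ^ 10 - 3432198 * X ^ 11 + 15343944 * X ^ 12 + 134596 * X ^ 13 - 25077360 * X ^ 14 + 6067446 * X ^ 15 + 33474936 * X ^ 16 - 12286968 * X ^ 17 - 38228232 * X ^ 18 + 14903725 * X ^ 19 + 38228232 * X ^ 20 - 12286968 * X ^ 21 - 33474936 * X ^ 22 + 6067446 * X ^ 23 + 25077360 * X ^ 24 + 134596 * X ^ 25 - 15343944 * X ^ 26 - 3432198 * X ^ 27 + 7072408 * X ^ 28 +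 3487260 * X ^ 29 - 2034672 * X ^ 30 - 1977862 * X ^ 31 + 73416 * X ^ 32 + 649704 * X ^ 33 + 212520 * X ^ 34 - 82731 * X ^ 35 - 78936 * X ^ 36 - 16192 * X ^ 37 + 6072 * X ^ 38 + 4830 * X ^ 39 + 1472 * X ^ 40 + 252 * X ^ 41 + 24 * X ^ 42 + 1 * X ^ 43), ?_⟩
  have : dedekindEtaUnit = (1 - X - X ^ 2) ^ 24 + X ^ 5 * g * c := by
    rw [dedekindEtaUnit, ← hc]; ring
  rw [this]
  ring

end Fermat.Agent.GR.D.HM
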