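import Mathlib
import Fermat.Prelude.Thm_ModularForm_sturm_bound_Gamma0
import Fermat.Agent.S23.LevelRaise
import Fermat.Agent.S20.OrbitCounts
import Fermat.Agent.Lib.JQExp

/-!
# GR-D, Hauptmodul package: oldforms `f(Nτ)` on `Γ₀(N)` and the Sturm bound in formal shape
-/

set_option autoImplicit false

namespace Fermat.Agent.GR.D.HM

open UpperHalfPlane ModularForm MatrixGroups CongruenceSubgroup Matrix.SpecialLinearGroup
open Fermat.Agent.S23
open scoped ModularForm Manifold Pointwise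

/-- A level one form, seen as a form on `Γ₀(N)`. -/
noncomputable def restr (N : ℕ) {k : ℤ} (f : ModularForm 𝒮ℒ k) : ModularForm (G0 N) k where
  toFun := ⇑f
  slash_action_eq' γ hγ := f.slash_action_eq' γ (G0_le_SL N hγ)
  holo' := f.holo'
  bdd_at_cusps' hc := f.bdd_at_cusps' (hc.mono (G0_le_SL N))

@[simp] theorem coe_restr (N : ℕ) {k : ℤ} (f : ModularForm 𝒮ℒ k) : ⇑(restr N f) = ⇑f := rfl

/-- The form `N^(k-1) f(Nτ)` of level `Γ₀(N)`. -/
noncomputable def raise (N : ℕ) [NeZero N] {k : ℤ} (f : ModularForm 𝒮ℒ k) :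
    ModularForm (G0 N) k where
  toFun := ⇑f ∣[k] heckeDiagMatrix N
  slash_action_eq' γ hγ :=
    (ModularForm.translate f (heckeDiagMatrix N)).slash_action_eq' γ (G0_le_conj N hγ)
  holo' := (ModularForm.translate f (heckeDiagMatrix N)).holo'
  bdd_at_cusps' hc :=
    (ModularForm.translate f (heckeDiagMatrix N)).bdd_at_cusps' (hc.mono (G0_le_conj N))

/-- The form `f(Nτ)` of level `Γ₀(N)`. -/
noncomputable def vop (N : ℕ) [NeZero N] {k : ℤ} (f : ModularForm 𝒮ℒ k) : ModularForm (G0 N) k :=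
  ((N : ℂ) ^ (k - 1))⁻¹ • raise N f

theorem vop_apply (N : ℕ) [NeZero N] {k : ℤ} (f : ModularForm 𝒮ℒ k) (τ : ℍ) :
    vop N f τ = f (heckeDiagMatrix N • τ) := by
  have hN : (N : ℂ) ≠ 0 := by exact_mod_cast NeZero.ne N
  show ((N : ℂ) ^ (k - 1))⁻¹ • (⇑f ∣[k] heckeDiagMatrix N) τ = _
  rw [slash_heckeDiagMatrix_apply _ (NeZero.ne N), smul_eq_mul, ← mul_assoc,
    inv_mul_cancel₀ (zpow_ne_zero _ hN), one_mul]

theorem hasSum_vop (N : ℕ) [NeZero N] {k : ℤ} (f : ModularForm 𝒮ℒ k) (τ : ℍ) :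
    HasSum (fun n : ℕ => ((qExpansion 1 f).expand N (NeZero.ne N)).coeff n •
        Function.Periodic.qParam 1 (τ : ℂ) ^ n) (vop N f τ) := by
  have hN : N ≠ 0 := NeZero.ne N
  have h1 := ModularForm.hasSum_qExpansion (f := f) one_pos
    one_mem_strictPeriods_SL (heckeDiagMatrix N • τ)
  rw [qParam_heckeDiag, ← vop_apply] at h1
  have hinj : Function.Injective (fun m : ℕ => N * m) := fun a b hab =>
    Nat.eq_of_mul_eq_mul_left (Nat.pos_of_ne_zero hN) hab
  rw [← hinj.hasSum_iff]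
  · have hfun : ((fun n : ℕ => ((qExpansion 1 f).expand N (NeZero.ne N)).coeff n •
          Function.Periodic.qParam 1 (τ : ℂ) ^ n) ∘ fun m : ℕ => N * m) =
        fun i => (qExpansion 1 f).coeff i • (Function.Periodic.qParam 1 (τ : ℂ) ^ N) ^ i := by
      funext m
      simp [pow_mul]
    rw [hfun]
    exact h1
  · intro n hn
    have : ¬ N ∣ n := fun ⟨m, hm⟩ => hn ⟨m, hm.symm⟩
    rw [PowerSeries.coeff_expand_of_not_dvd _ _ _ this, zero_smul]

theorem qExpansion_vop (N : ℕ) [NeZero N] {k : ℤ} (f : ModularForm 𝒮ℒ k) :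
    qExpansion 1 (vop N f) = (qExpansion 1 f).expand N (NeZero.ne N) := by
  ext n
  exact (ModularFormClass.qExpansion_coeff_unique one_pos
    (CongruenceSubgroup.one_mem_strictPeriods_Gamma0 N) (f := vop N f) (hasSum_vop N f) n).symm

theorem qExpansion_restr (N : ℕ) {k : ℤ} (f : ModularForm 𝒮ℒ k) :
    qExpansion 1 (restr N f) = qExpansion 1 f := rfl

/-- Sturm bound in the shape we use. -/
theorem eq_zero_of_X_pow_dvd (N : ℕ) [NeZero N] {k : ℤ} (F : ModularForm (G0 N) k) (m : ℕ)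
    (hm : (k * (ModularCurve.dedekindPsi N : ℤ)).toNat / 12 < m)
    (h : (PowerSeries.X : PowerSeries ℂ) ^ m ∣ qExpansion 1 F) : qExpansion 1 F = 0 := by
  have hF : F = 0 := by
    apply ModularForm.sturm_bound_Gamma0 N
    intro n hn
    rw [Fermat.Agent.S20.AR.index_Gamma0 N (NeZero.ne N)] at hn
    exact (PowerSeries.X_pow_dvd_iff.mp h) n (lt_of_le_of_lt hn hm)
  rw [hF]
  exact qExpansion_zero 1

end Fermat.Agent.GR.D.HM
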