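import Fermat.Agent.GR.D.HM.Ident
import Fermat.Prelude.Def_ModularCurve_X0ModL

/-!
# GR-D, Hauptmodul package: the Hauptmoduln `h₂`, `h₃` of `X₀(2)`, `X₀(3)` as formal series

`h_r = t_r / s_r` with `s_r = (E₄(q) - E₄(q^r))/240`, `t₂ = (16 E₄(q²) - E₄(q))/15`,
`t₃ = (81 E₄(q³) - E₄(q))/80`.  Main results (over every commutative ring `K`):

* `jq_mul_hq2_sq   : j(q)  * h₂² = (h₂ + 256)³`
* `jq2_mul_hq2     : j(q²) * h₂  = (h₂ + 16)³`
* `jq_mul_hq3_cube : j(q)  * h₃³ = (h₃ + 27) (h₃ + 243)³`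
* `jq3_mul_hq3     : j(q³) * h₃  = (h₃ + 27) (h₃ + 3)³`
-/

set_option autoImplicit false

namespace Fermat.Agent.GR.D.HM

open PowerSeries ModularCurve

/-- `∑ σ₃(n) qⁿ` -/
noncomputable def sig : PowerSeries ℤ :=
  PowerSeries.mk fun n => if n = 0 then 0 else ∑ d ∈ n.divisors, (d : ℤ) ^ 3

theorem eisenstein4_eq : eisenstein4 = 1 + 240 * sig := by
  ext n
  rw [map_add, show (240 : PowerSeries ℤ) = C 240 by simp, coeff_C_mul, eisenstein4, sig, coeff_mk,
    coeff_mk, coeff_one]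
  by_cases hn : n = 0 <;> simp [hn]

/-- `∑ σ₃(n) q^{rn}` -/
noncomputable def sigr (r : ℕ) [NeZero r] : PowerSeries ℤ := sig.expand r (NeZero.ne r)

theorem Er_eq (r : ℕ) [NeZero r] : Er r = 1 + 240 * sigr r := by
  rw [Er, eisenstein4_eq, sigr]
  simp only [map_add, map_mul, map_one, map_ofNat]

/-- `(∑ σ₃(n) (qⁿ - q^{rn}))/q` -/
noncomputable def s0 (r : ℕ) [NeZero r] : PowerSeries ℤ :=
  PowerSeries.mk fun n => (sig - sigr r).coeff (n + 1)

theorem X_mul_s0 (r : ℕ) [NeZero r] : X * s0 r = sig - sigr r := by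
  ext n
  cases n with
  | zero =>
    rw [coeff_zero_X_mul, map_sub, sigr, show (0 : ℕ) = r * 0 by simp, coeff_expand_mul, sig]
    simp
  | succ n => rw [coeff_succ_X_mul, s0, coeff_mk]

theorem constantCoeff_s0 (r : ℕ) [NeZero r] (hr : 2 ≤ r) : constantCoeff (s0 r) = 1 := by
  rw [← coeff_zero_eq_constantCoeff_apply, s0, coeff_mk, map_sub, sigr,
    coeff_expand_of_not_dvd _ _ _ (by simpa using (by omega : r ≠ 1)), sig, coeff_mk]
  simp

/-- inverse of `s0` -/
noncomputable def s0inv (r : ℕ) [NeZero r] : PowerSeries ℤ := (s0 r).invOfUnit 1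

theorem s0_mul_inv (r : ℕ) [NeZero r] (hr : 2 ≤ r) : s0 r * s0inv r = 1 :=
  PowerSeries.mul_invOfUnit _ _ (by rw [constantCoeff_s0 r hr]; rfl)

/-- `(16 E₄(q²) - E₄(q))/15` -/
noncomputable def t2 : PowerSeries ℤ := 1 + 256 * sigr 2 - 16 * sig

/-- `(81 E₄(q³) - E₄(q))/80` -/
noncomputable def t3 : PowerSeries ℤ := 1 + 243 * sigr 3 - 3 * sig

theorem E_eq2 : eisenstein4 = t2 + 256 * (X * s0 2) := by
  rw [X_mul_s0, eisenstein4_eq, t2]; ring

theorem E2_eq : Er 2 = t2 + 16 * (X * s0 2) := by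
  rw [X_mul_s0, Er_eq, t2]; ring

theorem E_eq3 : eisenstein4 = t3 + 243 * (X * s0 3) := by
  rw [X_mul_s0, eisenstein4_eq, t3]; ring

theorem E3_eq : Er 3 = t3 + 3 * (X * s0 3) := by
  rw [X_mul_s0, Er_eq, t3]; ring

theorem ofNat_ne_zero' (n : ℕ) [n.AtLeastTwo] : (OfNat.ofNat n : PowerSeries ℤ) ≠ 0 := by
  intro h0
  have := congrArg (constantCoeff (R := ℤ)) h0
  rw [map_ofNat, map_zero] at this
  exact (OfNat.ofNat_ne_zero n) this

theorem P2a : s0 2 * t2 ^ 2 = dedekindEtaUnit := by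
  have h := ident_A2
  rw [E_eq2, E2_eq] at h
  have h2 : (54000 * X : PowerSeries ℤ) * (s0 2 * t2 ^ 2) = (54000 * X) * dedekindEtaUnit := by
    linear_combination h
  exact mul_left_cancel₀ (mul_ne_zero (ofNat_ne_zero' _) X_ne_zero) h2

theorem P2b : s0 2 ^ 2 * t2 = Ur 2 := by
  have h := ident_B2
  rw [E_eq2, E2_eq] at h
  have h2 : (864000 * X ^ 2 : PowerSeries ℤ) * (s0 2 ^ 2 * t2) = (864000 * X ^ 2) * Ur 2 := by
    linear_combination h
  exact mul_left_cancel₀ (mul_ne_zero (ofNat_ne_zero' _)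
    (pow_ne_zero _ X_ne_zero)) h2

theorem P3a : s0 3 * t3 ^ 3 = (t3 + 27 * (X * s0 3)) * dedekindEtaUnit := by
  have h := ident_A3
  rw [E_eq3, E3_eq] at h
  have h2 : (122880000 * X : PowerSeries ℤ) * (s0 3 * t3 ^ 3) =
      (122880000 * X) * ((t3 + 27 * (X * s0 3)) * dedekindEtaUnit) := by
    linear_combination h
  exact mul_left_cancel₀ (mul_ne_zero (ofNat_ne_zero' _) X_ne_zero) h2

theorem P3b : s0 3 ^ 3 * t3 = (t3 + 27 * (X * s0 3)) * Ur 3 := by
  have h := ident_B3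
  rw [E_eq3, E3_eq] at h
  have h2 : (1105920000 * X ^ 3 : PowerSeries ℤ) * (s0 3 ^ 3 * t3) =
      (1105920000 * X ^ 3) * ((t3 + 27 * (X * s0 3)) * Ur 3) := by
    linear_combination h
  exact mul_left_cancel₀ (mul_ne_zero (ofNat_ne_zero' _)
    (pow_ne_zero _ X_ne_zero)) h2

/-- numerator of `h₂`: `h₂ = q⁻¹ hNum2`. -/
noncomputable def hNum2 : PowerSeries ℤ := t2 * s0inv 2

/-- numerator of `h₃`: `h₃ = q⁻¹ hNum3`. -/
noncomputable def hNum3 : PowerSeries ℤ := t3 * s0inv 3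

theorem constantCoeff_s0inv (r : ℕ) [NeZero r] (hr : 2 ≤ r) : constantCoeff (s0inv r) = 1 := by
  have h := congrArg (constantCoeff (R := ℤ)) (s0_mul_inv r hr)
  rwa [map_mul, constantCoeff_s0 r hr, one_mul, map_one] at h

theorem constantCoeff_sig : constantCoeff sig = 0 := by
  rw [← coeff_zero_eq_constantCoeff_apply, sig, coeff_mk]; simp

theorem constantCoeff_sigr (r : ℕ) [NeZero r] : constantCoeff (sigr r) = 0 := by
  rw [sigr, constantCoeff_expand, constantCoeff_sig]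

theorem constantCoeff_hNum2 : constantCoeff hNum2 = 1 := by
  rw [hNum2, map_mul, constantCoeff_s0inv 2 le_rfl, t2]
  simp [constantCoeff_sig, constantCoeff_sigr]

theorem constantCoeff_hNum3 : constantCoeff hNum3 = 1 := by
  rw [hNum3, map_mul, constantCoeff_s0inv 3 (by norm_num), t3]
  simp [constantCoeff_sig, constantCoeff_sigr]

/-- `jNum(q^r)` -/
noncomputable abbrev jNumr (r : ℕ) [NeZero r] : PowerSeries ℤ := jNum.expand r (NeZero.ne r)

theorem jNumr_eq (r : ℕ) [NeZero r] :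
    jNumr r = Er r ^ 3 * dedekindEtaUnitInv.expand r (NeZero.ne r) := by
  rw [jNumr, jNum, map_mul, map_pow]

theorem Ur_mul_inv (r : ℕ) [NeZero r] : Ur r * dedekindEtaUnitInv.expand r (NeZero.ne r) = 1 := by
  rw [Ur, ← map_mul, dedekindEtaUnit_mul_inv, map_one]

theorem R2a : jNum * hNum2 ^ 2 = (hNum2 + 256 * X) ^ 3 := by
  have h1 := s0_mul_inv 2 le_rfl
  have h2 := dedekindEtaUnit_mul_inv
  have h3 := P2a
  have e1 : hNum2 + 256 * X = s0inv 2 * eisenstein4 := by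
    rw [E_eq2, hNum2]; linear_combination (-256 * X) * h1
  have e2 : dedekindEtaUnitInv * t2 ^ 2 * s0inv 2 ^ 2 = s0inv 2 ^ 3 := by
    linear_combination (-dedekindEtaUnitInv * t2 ^ 2 * s0inv 2 ^ 2) * h1 +
      (dedekindEtaUnitInv * s0inv 2 ^ 3) * h3 + s0inv 2 ^ 3 * h2
  rw [e1, jNum, hNum2]
  linear_combination eisenstein4 ^ 3 * e2

theorem R2b : jNumr 2 * hNum2 = (hNum2 + 16 * X) ^ 3 := by
  have h1 := s0_mul_inv 2 le_rfl
  have h2 := Ur_mul_inv 2
  have h3 := P2b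
  set V := dedekindEtaUnitInv.expand 2 (NeZero.ne 2) with hV
  have e1 : hNum2 + 16 * X = s0inv 2 * Er 2 := by
    rw [E2_eq, hNum2]; linear_combination (-16 * X) * h1
  have e2 : V * t2 * s0inv 2 = s0inv 2 ^ 3 := by
    linear_combination (-V * t2 * s0inv 2 * (s0 2 * s0inv 2 + 1)) * h1 +
      (V * s0inv 2 ^ 3) * h3 + s0inv 2 ^ 3 * h2
  rw [e1, jNumr_eq, hNum2]
  linear_combination Er 2 ^ 3 * e2

theorem R3a : jNum * hNum3 ^ 3 = (hNum3 + 27 * X) * (hNum3 + 243 * X) ^ 3 := by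
  have h1 := s0_mul_inv 3 (by norm_num)
  have h2 := dedekindEtaUnit_mul_inv
  have h3 := P3a
  have e1 : hNum3 + 243 * X = s0inv 3 * eisenstein4 := by
    rw [E_eq3, hNum3]; linear_combination (-243 * X) * h1
  have e0 : hNum3 + 27 * X = s0inv 3 * (t3 + 27 * (X * s0 3)) := by
    rw [hNum3]; linear_combination (-27 * X) * h1
  have e2 : dedekindEtaUnitInv * t3 ^ 3 * s0inv 3 ^ 3 = s0inv 3 ^ 4 * (t3 + 27 * (X * s0 3)) := by
    linear_combination (-dedekindEtaUnitInv * t3 ^ 3 * s0inv 3 ^ 3) * h1 +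
      (dedekindEtaUnitInv * s0inv 3 ^ 4) * h3 + s0inv 3 ^ 4 * (t3 + 27 * (X * s0 3)) * h2
  rw [e1, e0, jNum, hNum3]
  linear_combination eisenstein4 ^ 3 * e2

theorem R3b : jNumr 3 * hNum3 = (hNum3 + 27 * X) * (hNum3 + 3 * X) ^ 3 := by
  have h1 := s0_mul_inv 3 (by norm_num)
  have h2 := Ur_mul_inv 3
  have h3 := P3b
  set V := dedekindEtaUnitInv.expand 3 (NeZero.ne 3) with hV
  have e1 : hNum3 + 3 * X = s0inv 3 * Er 3 := by
    rw [E3_eq, hNum3]; linear_combination (-3 * X) * h1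
  have e0 : hNum3 + 27 * X = s0inv 3 * (t3 + 27 * (X * s0 3)) := by
    rw [hNum3]; linear_combination (-27 * X) * h1
  have e2 : V * t3 * s0inv 3 = s0inv 3 ^ 4 * (t3 + 27 * (X * s0 3)) := by
    linear_combination
      (-V * t3 * s0inv 3 * ((s0 3 * s0inv 3) ^ 2 + s0 3 * s0inv 3 + 1)) * h1 +
      (V * s0inv 3 ^ 4) * h3 + s0inv 3 ^ 4 * (t3 + 27 * (X * s0 3)) * h2
  rw [e1, e0, jNumr_eq, hNum3]
  linear_combination Er 3 ^ 3 * e2

section Laurent

variable (K : Type*) [CommRing K]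

/-- `ℤ⟦q⟧ → K((q))`. -/
noncomputable def toL : PowerSeries ℤ →+* LaurentSeries K :=
  (HahnSeries.ofPowerSeries ℤ K).comp (PowerSeries.map (Int.castRingHom K))

theorem toL_apply (p : PowerSeries ℤ) :
    toL K p = HahnSeries.ofPowerSeries ℤ K (p.map (Int.castRingHom K)) := rfl

theorem toL_X : toL K X = HahnSeries.single (1 : ℤ) 1 := by
  rw [toL_apply, PowerSeries.map_X, HahnSeries.ofPowerSeries_X]

theorem jqModC_eq : jqModC K = HahnSeries.single (-1 : ℤ) 1 * toL K jNum := rfl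

theorem single_neg_one_mul_toL_X : HahnSeries.single (-1 : ℤ) (1 : K) * toL K X = 1 := by
  rw [toL_X, HahnSeries.single_mul_single]
  simp

theorem qExpand_ofPowerSeries (r : ℕ) [NeZero r] (p : PowerSeries K) :
    qExpand K r (HahnSeries.ofPowerSeries ℤ K p) =
      HahnSeries.ofPowerSeries ℤ K (p.expand r (NeZero.ne r)) := by
  have hr : (0 : ℤ) < r := by exact_mod_cast Nat.pos_of_ne_zero (NeZero.ne r)
  ext k
  by_cases hk : (r : ℤ) ∣ k
  · obtain ⟨m, rfl⟩ := hk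
    rw [qExpand_coeff_mul]
    rcases le_or_gt 0 m with hm | hm
    · lift m to ℕ using hm
      rw [HahnSeries.ofPowerSeries_apply_coeff, show (r : ℤ) * (m : ℤ) = ((r * m : ℕ) : ℤ) by
        push_cast; ring, HahnSeries.ofPowerSeries_apply_coeff, coeff_expand_mul]
    · rw [ofPowerSeries_coeff_of_neg _ hm, ofPowerSeries_coeff_of_neg _ (by nlinarith)]
  · rw [qExpand_coeff_of_not_dvd r _ hk]
    rcases le_or_gt 0 k with hk0 | hk0
    · lift k to ℕ using hk0
      rw [HahnSeries.ofPowerSeries_apply_coeff, coeff_expand_of_not_dvd]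
      exact fun h => hk (by exact_mod_cast h)
    · rw [ofPowerSeries_coeff_of_neg _ hk0]

theorem qExpand_toL (r : ℕ) [NeZero r] (p : PowerSeries ℤ) :
    qExpand K r (toL K p) = toL K (p.expand r (NeZero.ne r)) := by
  rw [toL_apply, qExpand_ofPowerSeries, toL_apply, PowerSeries.map_expand]

theorem qExpand_jqModC (r : ℕ) [NeZero r] :
    qExpand K r (jqModC K) = HahnSeries.single (-1 : ℤ) 1 ^ r * toL K (jNumr r) := by
  rw [jqModC_eq, map_mul, qExpand_toL, qExpand_single, HahnSeries.single_pow, one_pow]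
  congr 2

/-- The Hauptmodul `h₂ = q⁻¹ - 24 + …` of `X₀(2)`. -/
noncomputable def hq2 : LaurentSeries K := HahnSeries.single (-1 : ℤ) 1 * toL K hNum2

/-- The Hauptmodul `h₃ = q⁻¹ - 12 + …` of `X₀(3)`. -/
noncomputable def hq3 : LaurentSeries K := HahnSeries.single (-1 : ℤ) 1 * toL K hNum3

/-- `j(q) h₂² = (h₂ + 256)³`. -/
theorem jq_mul_hq2_sq : jqModC K * hq2 K ^ 2 = (hq2 K + 256) ^ 3 := by
  have h := congrArg (toL K) R2a
  simp only [map_mul, map_pow, map_add, map_ofNat] at h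
  have hx := single_neg_one_mul_toL_X K
  rw [jqModC_eq, hq2]
  set x := HahnSeries.single (-1 : ℤ) (1 : K)
  have e : x * toL K hNum2 + 256 = x * (toL K hNum2 + 256 * toL K X) := by
    linear_combination (-256 : LaurentSeries K) * hx
  rw [e]
  linear_combination x ^ 3 * h

/-- `j(q²) h₂ = (h₂ + 16)³`. -/
theorem jq2_mul_hq2 : qExpand K 2 (jqModC K) * hq2 K = (hq2 K + 16) ^ 3 := by
  have h := congrArg (toL K) R2b
  simp only [map_mul, map_pow, map_add, map_ofNat] at h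
  have hx := single_neg_one_mul_toL_X K
  rw [qExpand_jqModC, hq2]
  set x := HahnSeries.single (-1 : ℤ) (1 : K)
  have e : x * toL K hNum2 + 16 = x * (toL K hNum2 + 16 * toL K X) := by
    linear_combination (-16 : LaurentSeries K) * hx
  rw [e]
  linear_combination x ^ 3 * h

/-- `j(q) h₃³ = (h₃ + 27) (h₃ + 243)³`. -/
theorem jq_mul_hq3_cube : jqModC K * hq3 K ^ 3 = (hq3 K + 27) * (hq3 K + 243) ^ 3 := by
  have h := congrArg (toL K) R3a
  simp only [map_mul, map_pow, map_add, map_ofNat] at h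
  have hx := single_neg_one_mul_toL_X K
  rw [jqModC_eq, hq3]
  set x := HahnSeries.single (-1 : ℤ) (1 : K)
  have e : x * toL K hNum3 + 243 = x * (toL K hNum3 + 243 * toL K X) := by
    linear_combination (-243 : LaurentSeries K) * hx
  have e' : x * toL K hNum3 + 27 = x * (toL K hNum3 + 27 * toL K X) := by
    linear_combination (-27 : LaurentSeries K) * hx
  rw [e, e']
  linear_combination x ^ 4 * h

/-- `j(q³) h₃ = (h₃ + 27) (h₃ + 3)³`. -/
theorem jq3_mul_hq3 : qExpand K 3 (jqModC K) * hq3 K = (hq3 K + 27) * (hq3 K + 3) ^ 3 := by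
  have h := congrArg (toL K) R3b
  simp only [map_mul, map_pow, map_add, map_ofNat] at h
  have hx := single_neg_one_mul_toL_X K
  rw [qExpand_jqModC, hq3]
  set x := HahnSeries.single (-1 : ℤ) (1 : K)
  have e : x * toL K hNum3 + 3 = x * (toL K hNum3 + 3 * toL K X) := by
    linear_combination (-3 : LaurentSeries K) * hx
  have e' : x * toL K hNum3 + 27 = x * (toL K hNum3 + 27 * toL K X) := by
    linear_combination (-27 : LaurentSeries K) * hx
  rw [e, e']
  linear_combination x ^ 4 * h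

end Laurent

end Fermat.Agent.GR.D.HM
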