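import Fermat.Agent.GR.D.HM.Formal

/-!
# GR-D, Hauptmodul package: the four identities hold to the order required by the Sturm bound
-/

set_option autoImplicit false

namespace Fermat.Agent.GR.D.HM

open PowerSeries ModularCurve

section congr

variable {R : Type*} [CommRing R]

theorem dvd_A2 {d x E E' U pE pE' pU : R} (hE : d ∣ E - pE) (hE' : d ∣ E' - pE') (hU : d ∣ x * U - x * pU)
    (h : d ∣ (pE - pE') * ((16 * pE' - pE) * (16 * pE' - pE)) - 54000 * (x * pU)) :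
    d ∣ (E - E') * ((16 * E' - E) * (16 * E' - E)) - 54000 * (x * U) := by
  rw [← Ideal.mem_span_singleton, ← Ideal.Quotient.eq_zero_iff_mem] at *
  simp only [map_sub, map_mul, sub_eq_zero] at *
  rw [hE, hE', hU]; exact h

theorem dvd_B2 {d x E E' U pE pE' pU : R} (hE : d ∣ E - pE) (hE' : d ∣ E' - pE') (hU : d ∣ x * U - x * pU)
    (h : d ∣ ((pE - pE') * (pE - pE')) * (16 * pE' - pE) - 864000 * (x * pU)) :
    d ∣ ((E - E') * (E - E')) * (16 * E' - E) - 864000 * (x * U) := by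
  rw [← Ideal.mem_span_singleton, ← Ideal.Quotient.eq_zero_iff_mem] at *
  simp only [map_sub, map_mul, sub_eq_zero] at *
  rw [hE, hE', hU]; exact h

theorem dvd_A3 {d x E E' U pE pE' pU : R} (hE : d ∣ E - pE) (hE' : d ∣ E' - pE') (hU : d ∣ x * U - x * pU)
    (h : d ∣ ((81 * pE' - pE) * ((81 * pE' - pE) * (81 * pE' - pE))) * (pE - pE') -
      1536000 * (((81 * pE' - pE) + 9 * (pE - pE')) * (x * pU))) :
    d ∣ ((81 * E' - E) * ((81 * E' - E) * (81 * E' - E))) * (E - E') -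
      1536000 * (((81 * E' - E) + 9 * (E - E')) * (x * U)) := by
  rw [← Ideal.mem_span_singleton, ← Ideal.Quotient.eq_zero_iff_mem] at *
  simp only [map_sub, map_mul, map_add, sub_eq_zero] at *
  rw [hE, hE', hU]; exact h

theorem dvd_B3 {d x E E' U pE pE' pU : R} (hE : d ∣ E - pE) (hE' : d ∣ E' - pE') (hU : d ∣ x * U - x * pU)
    (h : d ∣ (81 * pE' - pE) * ((pE - pE') * ((pE - pE') * (pE - pE'))) -
      13824000 * (((81 * pE' - pE) + 9 * (pE - pE')) * (x * pU))) :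
    d ∣ (81 * E' - E) * ((E - E') * ((E - E') * (E - E'))) -
      13824000 * (((81 * E' - E) + 9 * (E - E')) * (x * U)) := by
  rw [← Ideal.mem_span_singleton, ← Ideal.Quotient.eq_zero_iff_mem] at *
  simp only [map_sub, map_mul, map_add, sub_eq_zero] at *
  rw [hE, hE', hU]; exact h

end congr

/-- `E₄(q^r)` as a formal series -/
noncomputable abbrev Er (r : ℕ) [NeZero r] : PowerSeries ℤ := eisenstein4.expand r (NeZero.ne r)

/-- `∏ (1 - q^{rn})²⁴` as a formal series -/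
noncomputable abbrev Ur (r : ℕ) [NeZero r] : PowerSeries ℤ := dedekindEtaUnit.expand r (NeZero.ne r)

theorem low_A2 : (X : PowerSeries ℤ) ^ 4 ∣
    (eisenstein4 - Er 2) * ((16 * Er 2 - eisenstein4) * (16 * Er 2 - eisenstein4)) -
      54000 * (X * dedekindEtaUnit) := by
  obtain ⟨g, hg⟩ := exists_eisenstein4
  obtain ⟨u, hu⟩ := exists_dedekindEtaUnit
  refine dvd_A2 (pE := 1 + 240 * X + 2160 * X ^ 2 + 6720 * X ^ 3) (pE' := 1 + 240 * X ^ 2)
    (pU := 1 - 24 * X + 252 * X ^ 2) ?_ ?_ ?_ ?_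
  · exact ⟨17520 + 30240 * X + X ^ 2 * g, by rw [hg]; ring⟩
  · refine ⟨2160 + 6720 * X ^ 2 + 17520 * X ^ 4 + 30240 * X ^ 6 + X ^ 8 * g.expand 2 two_ne_zero, ?_⟩
    rw [Er, hg]
    simp only [map_add, map_mul, map_pow, expand_X, map_one, map_ofNat]
    ring
  · exact ⟨-1472 + 4830 * X + X ^ 2 * u, by rw [hu]; ring⟩
  · exact ⟨-82944000 + 241920000 * X - 580608000 * X ^ 2 + 8128512000 * X ^ 3 -
      65028096000 * X ^ 4 + 303464448000 * X ^ 5, by ring⟩

theorem low_B2 : (X : PowerSeries ℤ) ^ 4 ∣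
    ((eisenstein4 - Er 2) * (eisenstein4 - Er 2)) * (16 * Er 2 - eisenstein4) -
      864000 * (X ^ 2 * Ur 2) := by
  obtain ⟨g, hg⟩ := exists_eisenstein4
  obtain ⟨u, hu⟩ := exists_dedekindEtaUnit
  refine dvd_B2 (pE := 1 + 240 * X + 2160 * X ^ 2 + 6720 * X ^ 3) (pE' := 1 + 240 * X ^ 2)
    (pU := 1) ?_ ?_ ?_ ?_
  · exact ⟨17520 + 30240 * X + X ^ 2 * g, by rw [hg]; ring⟩
  · refine ⟨2160 + 6720 * X ^ 2 + 17520 * X ^ 4 + 30240 * X ^ 6 + X ^ 8 * g.expand 2 two_ne_zero, ?_⟩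
    rw [Er, hg]
    simp only [map_add, map_mul, map_pow, expand_X, map_one, map_ofNat]
    ring
  · refine ⟨-24 + 252 * X ^ 2 - 1472 * X ^ 4 + 4830 * X ^ 6 + X ^ 8 * u.expand 2 two_ne_zero, ?_⟩
    rw [Ur, hu]
    simp only [map_add, map_sub, map_mul, map_pow, expand_X, map_one, map_ofNat]
    ring
  · exact ⟨-20736000 - 110592000 * X - 96768000 * X ^ 2 - 13934592000 * X ^ 3 -
      97542144000 * X ^ 4 - 303464448000 * X ^ 5, by ring⟩

theorem low_A3 : (X : PowerSeries ℤ) ^ 6 ∣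
    ((81 * Er 3 - eisenstein4) * ((81 * Er 3 - eisenstein4) * (81 * Er 3 - eisenstein4))) *
        (eisenstein4 - Er 3) -
      1536000 * (((81 * Er 3 - eisenstein4) + 9 * (eisenstein4 - Er 3)) *
        (X * dedekindEtaUnit)) := by
  obtain ⟨g, hg⟩ := exists_eisenstein4
  obtain ⟨u, hu⟩ := exists_dedekindEtaUnit
  refine dvd_A3
    (pE := 1 + 240 * X + 2160 * X ^ 2 + 6720 * X ^ 3 + 17520 * X ^ 4 + 30240 * X ^ 5)
    (pE' := 1 + 240 * X ^ 3)
    (pU := 1 - 24 * X + 252 * X ^ 2 - 1472 * X ^ 3 + 4830 * X ^ 4) ?_ ?_ ?_ ?_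
  · exact ⟨g, by rw [hg]; ring⟩
  · refine ⟨2160 + 6720 * X ^ 3 + 17520 * X ^ 6 + 30240 * X ^ 9 +
      X ^ 12 * g.expand 3 three_ne_zero, ?_⟩
    rw [Er, hg]
    simp only [map_add, map_mul, map_pow, expand_X, map_one, map_ofNat]
    ring
  · exact ⟨u, by rw [hu]; ring⟩
  · exact ⟨-773038080000 - 19212779520000 * X - 221361684480000 * X ^ 2 - 629668823040000 * X ^ 3 - 2457803243520000 * X ^ 4 + 3289794600960000 * X ^ 5 - 5341056122880000 * X ^ 6 - 965833113600000 * X ^ 7 + 45151561728000000 * X ^ 8 - 174317724794880000 * X ^ 9 + 128391575592960000 * X ^ 10 + 633245270999040000 * X ^ 11 - 808105449553920000 * X ^ 12 - 1937936103505920000 * X ^ 13 - 836232702197760000 * X ^ 14, by ring⟩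

theorem low_B3 : (X : PowerSeries ℤ) ^ 6 ∣
    (81 * Er 3 - eisenstein4) *
        ((eisenstein4 - Er 3) * ((eisenstein4 - Er 3) * (eisenstein4 - Er 3))) -
      13824000 * (((81 * Er 3 - eisenstein4) + 9 * (eisenstein4 - Er 3)) * (X ^ 3 * Ur 3)) := by
  obtain ⟨g, hg⟩ := exists_eisenstein4
  obtain ⟨u, hu⟩ := exists_dedekindEtaUnit
  refine dvd_B3
    (pE := 1 + 240 * X + 2160 * X ^ 2 + 6720 * X ^ 3 + 17520 * X ^ 4 + 30240 * X ^ 5)
    (pE' := 1 + 240 * X ^ 3) (pU := 1) ?_ ?_ ?_ ?_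
  · exact ⟨g, by rw [hg]; ring⟩
  · refine ⟨2160 + 6720 * X ^ 3 + 17520 * X ^ 6 + 30240 * X ^ 9 +
      X ^ 12 * g.expand 3 three_ne_zero, ?_⟩
    rw [Er, hg]
    simp only [map_add, map_mul, map_pow, expand_X, map_one, map_ofNat]
    ring
  · refine ⟨-24 + 252 * X ^ 3 - 1472 * X ^ 6 + 4830 * X ^ 9 + X ^ 12 * u.expand 3 three_ne_zero, ?_⟩
    rw [Ur, hu]
    simp only [map_add, map_sub, map_mul, map_pow, expand_X, map_one, map_ofNat]
    ring
  · exact ⟨-26542080000 - 637009920000 * X - 6539304960000 * X ^ 2 - 29269278720000 * X ^ 3 - 134866944000000 * X ^ 4 - 497076756480000 * X ^ 5 - 2874555924480000 * X ^ 6 - 16203813765120000 * X ^ 7 - 68054576578560000 * X ^ 8 - 231945835806720000 * X ^ 9 - 612237563043840000 * X ^ 10 - 1212408160911360000 * X ^ 11 - 1869988245995520000 * X ^ 12 - 1937936103505920000 * X ^ 13 - 836232702197760000 * X ^ 14, by ring⟩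

end Fermat.Agent.GR.D.HM
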