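import Fermat.Agent.GR.D.HM.Forms
import Fermat.Agent.GR.D.HM.Low

/-!
# GR-D, Hauptmodul package: the four identities between `E₄(q)`, `E₄(q^r)`, `Δ(q)`, `Δ(q^r)`
-/

set_option autoImplicit false

namespace Fermat.Agent.GR.D.HM

open UpperHalfPlane ModularForm MatrixGroups CongruenceSubgroup Matrix.SpecialLinearGroup
open Fermat.Agent.S23 EisensteinSeries
open scoped ModularForm Manifold Pointwise
open PowerSeries (X)
open ModularCurve (eisenstein4 dedekindEtaUnit dedekindPsi)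

/-- `Δ` as a modular form. -/
noncomputable def DeltaMF : ModularForm 𝒮ℒ 12 := CuspForm.toModularFormₗ CuspForm.discriminant

/-- coefficientwise `ℤ → ℂ`. -/
noncomputable abbrev iC : PowerSeries ℤ →+* PowerSeries ℂ := PowerSeries.map (Int.castRingHom ℂ)

theorem iC_injective : Function.Injective iC :=
  PowerSeries.map_injective _ (RingHom.injective_int _)

theorem qExpansion_DeltaMF : qExpansion 1 DeltaMF = X * iC dedekindEtaUnit :=
  Lib.JQExp.qExpansion_discriminant

theorem qExp_a (r : ℕ) : qExpansion 1 (restr r E₄) = iC eisenstein4 := Lib.JQExp.qExpansion_E4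

theorem qExp_b (r : ℕ) [NeZero r] : qExpansion 1 (vop r E₄) = iC (Er r) := by
  rw [qExpansion_vop, Lib.JQExp.qExpansion_E4, Er, iC, PowerSeries.map_expand]

theorem qExp_d (r : ℕ) : qExpansion 1 (restr r DeltaMF) = iC (X * dedekindEtaUnit) := by
  rw [map_mul, iC, PowerSeries.map_X]
  exact qExpansion_DeltaMF

theorem qExp_d' (r : ℕ) [NeZero r] : qExpansion 1 (vop r DeltaMF) = iC (X ^ r * Ur r) := by
  rw [qExpansion_vop, qExpansion_DeltaMF, map_mul, map_mul, map_pow, PowerSeries.expand_X, Ur, iC,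
    PowerSeries.map_expand, PowerSeries.map_X]

theorem psi_prime {p : ℕ} (hp : p.Prime) : dedekindPsi p = p + 1 := by
  rw [dedekindPsi, hp.divisors, Finset.filter_true_of_mem, Finset.sum_pair hp.one_lt.ne]
  · simp [Nat.div_self hp.pos]
  · intro d hd
    simp only [Finset.mem_insert, Finset.mem_singleton] at hd
    rcases hd with rfl | rfl
    · exact squarefree_one
    · exact hp.squarefree

theorem psi_two : dedekindPsi 2 = 3 := psi_prime Nat.prime_two
theorem psi_three : dedekindPsi 3 = 4 := psi_prime Nat.prime_three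

theorem one_mem_per (r : ℕ) : (1 : ℝ) ∈ (G0 r).strictPeriods :=
  CongruenceSubgroup.one_mem_strictPeriods_Gamma0 r

section Q

variable {r : ℕ} {k k' : ℤ}

theorem Q_sub (f g : ModularForm (G0 r) k) :
    qExpansion 1 ((f - g : ModularForm (G0 r) k) : ℍ → ℂ) = qExpansion 1 f - qExpansion 1 g := by
  rw [FunLike.coe_sub]; exact ModularForm.qExpansion_sub one_pos (one_mem_per r) f g

theorem Q_add (f g : ModularForm (G0 r) k) :
    qExpansion 1 ((f + g : ModularForm (G0 r) k) : ℍ → ℂ) = qExpansion 1 f + qExpansion 1 g := by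
  rw [FunLike.coe_add]; exact ModularForm.qExpansion_add one_pos (one_mem_per r) f g

theorem Q_smul (c : ℂ) (f : ModularForm (G0 r) k) :
    qExpansion 1 ((c • f : ModularForm (G0 r) k) : ℍ → ℂ) = PowerSeries.C c * qExpansion 1 f := by
  rw [FunLike.coe_smul, ModularForm.qExpansion_smul one_pos (one_mem_per r) c f,
    PowerSeries.smul_eq_C_mul]

theorem Q_mul (f : ModularForm (G0 r) k) (g : ModularForm (G0 r) k') :
    qExpansion 1 (f.mul g) = qExpansion 1 f * qExpansion 1 g :=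
  ModularForm.qExpansion_mul one_pos (one_mem_per r) f g

end Q

/-- the form whose vanishing is identity (A2) -/
noncomputable def FA2 : ModularForm (G0 2) 12 :=
  ModularForm.mcast (by norm_num) ((restr 2 E₄ - vop 2 E₄).mul
    (((16 : ℂ) • vop 2 E₄ - restr 2 E₄).mul ((16 : ℂ) • vop 2 E₄ - restr 2 E₄))) -
    (54000 : ℂ) • restr 2 DeltaMF

theorem qExp_FA2 : qExpansion 1 FA2 = iC
    ((eisenstein4 - Er 2) * ((16 * Er 2 - eisenstein4) * (16 * Er 2 - eisenstein4)) -
      54000 * (X * dedekindEtaUnit)) := by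
  simp only [FA2, Q_sub, Q_smul, Q_mul, ModularForm.qExpansion_mcast, qExp_a, qExp_b, qExp_d,
    map_sub, map_mul, map_ofNat]

/-- **Identity (A2)**: `54000 Δ(q) = (E₄(q) - E₄(q²)) (16 E₄(q²) - E₄(q))²`. -/
theorem ident_A2 :
    (eisenstein4 - Er 2) * ((16 * Er 2 - eisenstein4) * (16 * Er 2 - eisenstein4)) =
      54000 * (X * dedekindEtaUnit) := by
  rw [← sub_eq_zero]
  apply iC_injective
  rw [map_zero, ← qExp_FA2]
  refine eq_zero_of_X_pow_dvd 2 FA2 4 (by rw [psi_two]; decide) ?_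
  rw [qExp_FA2]
  have := map_dvd iC low_A2
  rwa [map_pow, iC, PowerSeries.map_X] at this

/-- the form whose vanishing is identity (B2) -/
noncomputable def FB2 : ModularForm (G0 2) 12 :=
  ModularForm.mcast (by norm_num) (((restr 2 E₄ - vop 2 E₄).mul (restr 2 E₄ - vop 2 E₄)).mul
    ((16 : ℂ) • vop 2 E₄ - restr 2 E₄)) - (864000 : ℂ) • vop 2 DeltaMF

theorem qExp_FB2 : qExpansion 1 FB2 = iC
    (((eisenstein4 - Er 2) * (eisenstein4 - Er 2)) * (16 * Er 2 - eisenstein4) -
      864000 * (X ^ 2 * Ur 2)) := by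
  simp only [FB2, Q_sub, Q_smul, Q_mul, ModularForm.qExpansion_mcast, qExp_a, qExp_b, qExp_d',
    map_sub, map_mul, map_ofNat]

/-- **Identity (B2)**: `864000 Δ(q²) = (E₄(q) - E₄(q²))² (16 E₄(q²) - E₄(q))`. -/
theorem ident_B2 :
    ((eisenstein4 - Er 2) * (eisenstein4 - Er 2)) * (16 * Er 2 - eisenstein4) =
      864000 * (X ^ 2 * Ur 2) := by
  rw [← sub_eq_zero]
  apply iC_injective
  rw [map_zero, ← qExp_FB2]
  refine eq_zero_of_X_pow_dvd 2 FB2 4 (by rw [psi_two]; decide) ?_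
  rw [qExp_FB2]
  have := map_dvd iC low_B2
  rwa [map_pow, iC, PowerSeries.map_X] at this

/-- the form whose vanishing is identity (A3) -/
noncomputable def FA3 : ModularForm (G0 3) 16 :=
  ModularForm.mcast (by norm_num) ((((81 : ℂ) • vop 3 E₄ - restr 3 E₄).mul
    ((((81 : ℂ) • vop 3 E₄ - restr 3 E₄)).mul ((81 : ℂ) • vop 3 E₄ - restr 3 E₄))).mul
      (restr 3 E₄ - vop 3 E₄)) -
    (1536000 : ℂ) • ModularForm.mcast (by norm_num)
      ((((81 : ℂ) • vop 3 E₄ - restr 3 E₄) + (9 : ℂ) • (restr 3 E₄ - vop 3 E₄)).mul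
        (restr 3 DeltaMF))

theorem qExp_FA3 : qExpansion 1 FA3 = iC
    (((81 * Er 3 - eisenstein4) * ((81 * Er 3 - eisenstein4) * (81 * Er 3 - eisenstein4))) *
        (eisenstein4 - Er 3) -
      1536000 * (((81 * Er 3 - eisenstein4) + 9 * (eisenstein4 - Er 3)) *
        (X * dedekindEtaUnit))) := by
  simp only [FA3, Q_sub, Q_add, Q_smul, Q_mul, ModularForm.qExpansion_mcast, qExp_a, qExp_b,
    qExp_d, map_sub, map_add, map_mul, map_ofNat]

/-- **Identity (A3)**. -/
theorem ident_A3 :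
    ((81 * Er 3 - eisenstein4) * ((81 * Er 3 - eisenstein4) * (81 * Er 3 - eisenstein4))) *
        (eisenstein4 - Er 3) =
      1536000 * (((81 * Er 3 - eisenstein4) + 9 * (eisenstein4 - Er 3)) *
        (X * dedekindEtaUnit)) := by
  rw [← sub_eq_zero]
  apply iC_injective
  rw [map_zero, ← qExp_FA3]
  refine eq_zero_of_X_pow_dvd 3 FA3 6 (by rw [psi_three]; decide) ?_
  rw [qExp_FA3]
  have := map_dvd iC low_A3
  rwa [map_pow, iC, PowerSeries.map_X] at this

/-- the form whose vanishing is identity (B3) -/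
noncomputable def FB3 : ModularForm (G0 3) 16 :=
  ModularForm.mcast (by norm_num) (((81 : ℂ) • vop 3 E₄ - restr 3 E₄).mul
    ((restr 3 E₄ - vop 3 E₄).mul ((restr 3 E₄ - vop 3 E₄).mul (restr 3 E₄ - vop 3 E₄)))) -
    (13824000 : ℂ) • ModularForm.mcast (by norm_num)
      ((((81 : ℂ) • vop 3 E₄ - restr 3 E₄) + (9 : ℂ) • (restr 3 E₄ - vop 3 E₄)).mul
        (vop 3 DeltaMF))

theorem qExp_FB3 : qExpansion 1 FB3 = iC
    ((81 * Er 3 - eisenstein4) *
        ((eisenstein4 - Er 3) * ((eisenstein4 - Er 3) * (eisenstein4 - Er 3))) -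
      13824000 * (((81 * Er 3 - eisenstein4) + 9 * (eisenstein4 - Er 3)) * (X ^ 3 * Ur 3))) := by
  simp only [FB3, Q_sub, Q_add, Q_smul, Q_mul, ModularForm.qExpansion_mcast, qExp_a, qExp_b,
    qExp_d', map_sub, map_add, map_mul, map_ofNat]

/-- **Identity (B3)**. -/
theorem ident_B3 :
    (81 * Er 3 - eisenstein4) *
        ((eisenstein4 - Er 3) * ((eisenstein4 - Er 3) * (eisenstein4 - Er 3))) =
      13824000 * (((81 * Er 3 - eisenstein4) + 9 * (eisenstein4 - Er 3)) * (X ^ 3 * Ur 3)) := by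
  rw [← sub_eq_zero]
  apply iC_injective
  rw [map_zero, ← qExp_FB3]
  refine eq_zero_of_X_pow_dvd 3 FB3 6 (by rw [psi_three]; decide) ?_
  rw [qExp_FB3]
  have := map_dvd iC low_B3
  rwa [map_pow, iC, PowerSeries.map_X] at this

end Fermat.Agent.GR.D.HM
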